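import Fermat.Agent.Lifting.Setup.Weights
import Fermat.Agent.Lifting.Curve.Residual
import Fermat.Agent.Lifting.Module.FreeData
import Fermat.Agent.Lifting.Deform.Condition
import Fermat.Prelude.Def_FLTPrelim_ModularRep

/-!
# The setting of the lifting argument

`Ctx` is a semistable curve with irreducible `W[p]`, `p = 3, 5`, a coefficient ring and an
auxiliary prime `a`. The levels are `baseLevel b * ∏ T`; `b = false` is the case of a congruent
level prime to `p`, `b = true` that of none. The algebras of the levels are in `Setup.Algebra`.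
-/

set_option autoImplicit false
set_option linter.style.haveILetI false

noncomputable section

open IsLocalRing MvPolynomial

namespace Fermat.Agent.Lifting

open Fermat.Agent.RT.GammaH Degeneracy

/-- The data of the lifting argument. -/
structure Ctx (O : Type) [CommRing O] [IsDomain O] [IsDiscreteValuationRing O] (p : ℕ)
    [Fact p.Prime] where
  W : WeierstrassCurve ℤ
  delta_ne : W.Δ ≠ 0
  semistable : W.IsSemistableModel
  three_or_five : p = 3 ∨ p = 5
  irreducible : W.ModRepIsIrreducible p
  p_mem : (p : O) ∈ maximalIdeal O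
  roots : ∀ f : Polynomial (ZMod p), f.natDegree = 2 → ∀ [CharP (ResidueField O) p],
    ∃ x : ResidueField O, (f.map (ZMod.castHom (dvd_refl p) (ResidueField O))).IsRoot x
  a : ℕ
  a_prime : a.Prime
  a_good : W.IsGoodPrimeFor a
  a_ne : a ≠ p
  a_sq : Curve.abar W (ResidueField O) a ^ 2 ≠ (1 + (a : ResidueField O)) ^ 2
  a_three : p = 3 → a % 3 = 2
  /-- The residual eigenvalue of Frobenius on the unramified quotient at a bad `p`. -/
  sp : ℤ
  sp_unit : sp = 1 ∨ sp = -1
  sp_spec : (p : ℤ) ∣ W.Δ → ∀ P : ValuationSubring (AlgebraicClosure ℚ), P.LiesOverPrime p →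
    ∀ σ : Deform.Gal, P.IsFrobeniusAt σ p → (∀ μ : AlgebraicClosure ℚ, μ ^ p = 1 → σ μ = μ) →
      ∀ [CharP (ResidueField O) p],
        LinearMap.trace (ResidueField O) _
          ((Curve.residual (p := p) delta_ne (ResidueField O)).ρ σ) = ((2 * sp : ℤ) : ResidueField O)

variable {O : Type} [CommRing O] [IsDomain O] [IsDiscreteValuationRing O]
  {p : ℕ} [Fact p.Prime] [CharP (ResidueField O) p]

namespace Ctx

variable (C : Ctx O p)

omit [CharP (ResidueField O) p] in
include C in
theorem p_ne_two : p ≠ 2 := by
  rcases C.three_or_five with h | h <;> omega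

/-- The residual representation. -/
abbrev ρbar : ResidualGaloisRep (ResidueField O) :=
  Curve.residual (p := p) C.delta_ne (ResidueField O)

/-- The residual system. -/
abbrev abar : ℕ → ResidueField O := Curve.abar C.W (ResidueField O)

/-- The primes other than `p` at which the residual representation is ramified. -/
abbrev N0 : Finset ℕ := Curve.ramifiedPrimes (p := p) C.delta_ne

/-- The primes of the minimal level, without `p`. -/
def basePrimes : Finset ℕ := insert C.a C.N0

/-- The minimal level. -/
def baseLevel (b : Bool) : ℕ := (if b then p else 1) * ∏ q ∈ C.basePrimes, q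

/-- The level of a set of raised primes. -/
def level (b : Bool) (T : Finset ℕ) : ℕ := C.baseLevel b * ∏ q ∈ T, q

/-- A finite set of primes containing the bad primes, `p` and `a`. -/
def badSet : Finset ℕ := insert p (insert C.a C.W.Δ.natAbs.primeFactors)

/-- The sign at a raised prime: `U_q` has the value `sgn q` on the systems of `W`. -/
def sgn (q : ℕ) : ℤ := if q = p then C.sp else Curve.frobSign C.W q

omit [CharP (ResidueField O) p] in
theorem sgn_of_ne {q : ℕ} (hq : q ≠ p) : C.sgn q = Curve.frobSign C.W q := if_neg hq

omit [CharP (ResidueField O) p] in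
theorem sgn_mul_self (q : ℕ) : C.sgn q * C.sgn q = 1 := by
  unfold sgn
  split_ifs
  · rcases C.sp_unit with h | h <;> simp [h]
  · exact Curve.frobSign_mul_self C.W q

/-- The hypothesis of each case. -/
structure Base (b : Bool) : Prop where
  modular : C.W.IsResiduallyModularOfLevel p (C.baseLevel b)
  bad : b = true → (p : ℤ) ∣ C.W.Δ
  pnew : b = true → ∀ N : ℕ, Squarefree N → ¬ p ∣ N → ¬ C.W.IsResiduallyModularOfLevel p N

/-- Admissible sets of raised primes. -/
structure Admissible (b : Bool) (T : Finset ℕ) : Prop where
  prime : ∀ q ∈ T, q.Prime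
  notMem : ∀ q ∈ T, q ∉ C.basePrimes
  ne_p : b = true → p ∉ T

/-- The condition at `p` at the level of `T`. -/
def kind (_C : Ctx O p) (b : Bool) (T : Finset ℕ) : PKind :=
  if b then .strict else if p ∈ T then .ord else .flat

/-- The deformation condition of the level of `T`. -/
def cond (b : Bool) (T : Finset ℕ) : Cond O :=
  liftCondition O p (C.kind b T) C.N0 T C.sgn

/-- The sign of the involutions on the raised part. -/
def eps (q : ℕ) : O := -(C.sgn q : O)

omit [CharP (ResidueField O) p] in
theorem prime_of_mem_basePrimes {q : ℕ} (hq : q ∈ C.basePrimes) : q.Prime := by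
  rcases Finset.mem_insert.1 hq with rfl | h
  · exact C.a_prime
  · classical
    simp only [Curve.ramifiedPrimes, Finset.mem_filter] at h
    exact Nat.prime_of_mem_primeFactors h.1

omit [CharP (ResidueField O) p] in
theorem baseLevel_pos (b : Bool) : 0 < C.baseLevel b := by
  refine Nat.mul_pos ?_ (Finset.prod_pos fun q hq => (C.prime_of_mem_basePrimes hq).pos)
  cases b
  · exact Nat.one_pos
  · exact (Fact.out : p.Prime).pos

omit [CharP (ResidueField O) p] in
theorem a_dvd_level (b : Bool) (T : Finset ℕ) : C.a ∣ C.level b T := by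
  refine Dvd.dvd.trans ?_ (dvd_mul_right (C.baseLevel b) _)
  exact (Finset.dvd_prod_of_mem (fun q => q) (Finset.mem_insert_self C.a C.N0)).trans
    (dvd_mul_left _ _)

omit [CharP (ResidueField O) p] in
theorem freeLevel_level (b : Bool) (T : Finset ℕ) : Module.FreeLevel p (C.level b T) :=
  fun hp => ⟨C.a, C.a_prime, C.a_dvd_level b T, C.a_three hp⟩

end Ctx

end Fermat.Agent.Lifting
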