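import Fermat.Agent.Lifting.Setup.Weights
import Fermat.Agent.Lifting.Degeneracy.Composite

/-!
# The algebra of the twisted operators on an eigenspace of the involutions

`levelT` acts on `wEigen`; for `T = ∅` that is the whole localised part (`wEigen_empty`). It serves
the minimal level (`K = ⊤`), the Taylor–Wiles levels and the raised levels.
-/

set_option autoImplicit false
set_option linter.style.haveILetI false

noncomputable section

open IsLocalRing MvPolynomial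

namespace Fermat.Agent.Lifting

open Fermat.Agent.RT.GammaH Degeneracy

theorem diaSub_one (N : ℕ) : diaSub (fun _ => 1) N = ⊤ := by
  refine eq_top_iff.2 fun u _ q h hq => ?_
  have : Fact q.Prime := ⟨hq⟩
  rw [Nat.div_one, ZMod.units_pow_card_sub_one_eq_one]

variable {O : Type} [CommRing O] [IsDomain O] [IsDiscreteValuationRing O]
  [IsAdicComplete (maximalIdeal O) O] {N e : ℕ} [NeZero N] (S : Finset ℕ)
  {K : Subgroup (ZMod N)ˣ}
  (abar : ℕ → ResidueField O) (hK : TwistSub N K e) (T : Finset ℕ) (eps : ℕ → O)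

theorem wEigen_empty : wEigen S abar hK ∅ eps = locSub O S abar K :=
  le_antisymm (fun _ hx => hx.1) fun _ hx => ⟨hx, fun q hq => absurd hq (Finset.notMem_empty q)⟩

/-- A twisted operator on the eigenspace. -/
def twAct (ℓ : {ℓ : ℕ // ℓ.Prime ∧ ℓ ∉ S}) (hℓ : ℓ.1.Coprime N) :
    Module.End O (wEigen S abar hK T eps) :=
  (opAct O S K O (twEl O N S e ℓ hℓ)).restrict fun _ hx => twEl_smul_mem_wEigen ℓ hℓ hx

theorem coe_twAct (ℓ : {ℓ : ℕ // ℓ.Prime ∧ ℓ ∉ S}) (hℓ : ℓ.1.Coprime N)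
    (x : wEigen S abar hK T eps) :
    (twAct S abar hK T eps ℓ hℓ x : HomMod O S K O) = twEl O N S e ℓ hℓ • (x : HomMod O S K O) := rfl

theorem twAct_comm (ℓ ℓ' : {ℓ : ℕ // ℓ.Prime ∧ ℓ ∉ S}) (hℓ : ℓ.1.Coprime N)
    (hℓ' : ℓ'.1.Coprime N) :
    twAct S abar hK T eps ℓ hℓ * twAct S abar hK T eps ℓ' hℓ' =
      twAct S abar hK T eps ℓ' hℓ' * twAct S abar hK T eps ℓ hℓ :=
  LinearMap.ext fun x => Subtype.ext <| by
    rw [Module.End.mul_apply, Module.End.mul_apply, coe_twAct, coe_twAct, coe_twAct, coe_twAct,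
      smul_smul, smul_smul, mul_comm]

/-- The Hecke algebra of a level. -/
def levelT : Subalgebra O (Module.End O (wEigen S abar hK T eps)) :=
  Algebra.adjoin O {t | ∃ (ℓ : {ℓ : ℕ // ℓ.Prime ∧ ℓ ∉ S}) (hℓ : ℓ.1.Coprime N),
    t = twAct S abar hK T eps ℓ hℓ}

instance : CommRing (levelT S abar hK T eps) :=
  { (levelT S abar hK T eps).toRing with
    mul_comm := (Algebra.adjoinCommRingOfComm O (by
      rintro _ ⟨ℓ, hℓ, rfl⟩ _ ⟨ℓ', hℓ', rfl⟩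
      exact twAct_comm S abar hK T eps ℓ ℓ' hℓ hℓ') :
        CommRing (Algebra.adjoin O {t | ∃ (ℓ : {ℓ : ℕ // ℓ.Prime ∧ ℓ ∉ S}) (hℓ : ℓ.1.Coprime N),
          t = twAct S abar hK T eps ℓ hℓ})).mul_comm }

open scoped Classical in
/-- The operators of a level. -/
def levelOp (ℓ : ℕ) : levelT S abar hK T eps :=
  if h : (ℓ.Prime ∧ ℓ ∉ S) ∧ ℓ.Coprime N then
    ⟨twAct S abar hK T eps ⟨ℓ, h.1⟩ h.2, Algebra.subset_adjoin ⟨⟨ℓ, h.1⟩, h.2, rfl⟩⟩
  else 0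

theorem coe_levelOp {ℓ : ℕ} (hℓ : ℓ.Prime) (hℓS : ℓ ∉ S) (hℓN : ℓ.Coprime N) :
    (levelOp S abar hK T eps ℓ : Module.End O (wEigen S abar hK T eps)) =
      twAct S abar hK T eps ⟨ℓ, hℓ, hℓS⟩ hℓN := by
  rw [levelOp, dif_pos ⟨⟨hℓ, hℓS⟩, hℓN⟩]

theorem adjoin_levelOp (hS : ∀ v : ℕ, v.Prime → v ∣ N → v ∈ S) :
    Algebra.adjoin O (levelOp S abar hK T eps '' {ℓ | ℓ.Prime ∧ ℓ ∉ S}) = ⊤ := by
  apply Subalgebra.map_injective (f := (levelT S abar hK T eps).val) Subtype.val_injective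
  rw [AlgHom.map_adjoin, Algebra.map_top, Subalgebra.range_val]
  unfold levelT
  congr 1
  ext t
  constructor
  · rintro ⟨_, ⟨ℓ, ⟨hℓ, hℓS⟩, rfl⟩, rfl⟩
    have hℓN : ℓ.Coprime N := hℓ.coprime_iff_not_dvd.2 fun h => hℓS (hS ℓ hℓ h)
    exact ⟨⟨ℓ, hℓ, hℓS⟩, hℓN, coe_levelOp S abar hK T eps hℓ hℓS hℓN⟩
  · rintro ⟨ℓ, hℓ, rfl⟩
    exact ⟨_, ⟨ℓ.1, ℓ.2, rfl⟩, coe_levelOp S abar hK T eps ℓ.2.1 ℓ.2.2 hℓ⟩

end Fermat.Agent.Lifting
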