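import Fermat.Agent.Lifting.Setup.Basic
import Fermat.Agent.Lifting.Curve.Primes
import Fermat.Agent.RT.Lower.Curve
import Fermat.Agent.RT.Lower.Ribet

/-!
# The two cases of the lifting argument

`b = false`: some squarefree level prime to `p` is residually modular; then so is the product of
`a` and the ramified primes. `b = true`: none is; then so is `p` times that product, and `p` is
bad. Nothing here refers to a coefficient ring.
-/

set_option autoImplicit false

noncomputable section

open IsLocalRing WeierstrassCurve Fermat.Agent.RT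

namespace Fermat.Agent.Lifting

namespace Setup

variable {W : WeierstrassCurve ℤ} {p : ℕ} [Fact p.Prime] (hΔ : W.Δ ≠ 0)

/-- An auxiliary prime, with its property in every field of characteristic `p`. -/
structure IsAuxiliary (W : WeierstrassCurve ℤ) (p a : ℕ) [Fact p.Prime] : Prop where
  prime : a.Prime
  good : W.IsGoodPrimeFor a
  ne : a ≠ p
  sq : ∀ (k : Type) [Field k] [CharP k p], Curve.abar W k a ^ 2 ≠ (1 + (a : k)) ^ 2
  three : p = 3 → a % 3 = 2

include hΔ in
theorem exists_isAuxiliary (hW : W.IsSemistableModel) (hp2 : p ≠ 2)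
    (hirr : W.ModRepIsIrreducible p) (S : Finset ℕ) : ∃ a : ℕ, a ∉ S ∧ IsAuxiliary W p a := by
  obtain ⟨a, ha, haS, hgood, hap, hsq, -, h3⟩ :=
    Curve.exists_prime_sq_ne (k := ZMod p) hΔ hW hp2 hirr S
  exact ⟨a, haS, ha, hgood, hap, fun k _ _ h => hsq
    ((ZMod.castHom (dvd_refl p) k).injective (by simpa [Curve.abar] using h)), h3⟩

/-- The primes of the minimal level of `W` and `a`, without `p`. -/
abbrev casePrimes (a : ℕ) : Finset ℕ := insert a (Curve.ramifiedPrimes (p := p) hΔ)

/-- The minimal level of a case. -/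
abbrev caseLevel (a : ℕ) (b : Bool) : ℕ := (if b then p else 1) * ∏ q ∈ casePrimes (p := p) hΔ a, q

/-- The hypothesis of each case, without a coefficient ring. -/
structure IsCase (a : ℕ) (b : Bool) : Prop where
  modular : W.IsResiduallyModularOfLevel p (caseLevel (p := p) hΔ a b)
  bad : b = true → (p : ℤ) ∣ W.Δ
  pnew : b = true → ∀ N : ℕ, Squarefree N → ¬ p ∣ N → ¬ W.IsResiduallyModularOfLevel p N

theorem prime_of_mem_casePrimes {a q : ℕ} (ha : a.Prime)
    (hq : q ∈ casePrimes (p := p) hΔ a) : q.Prime := by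
  rcases Finset.mem_insert.1 hq with rfl | h
  · exact ha
  · exact ((Curve.mem_ramifiedPrimes hΔ (k := ZMod p)).1 h).1

theorem p_notMem_casePrimes {a : ℕ} (hap : a ≠ p) : p ∉ casePrimes (p := p) hΔ a := fun h => by
  rcases Finset.mem_insert.1 h with h | h
  · exact hap h.symm
  · exact ((Curve.mem_ramifiedPrimes hΔ (k := ZMod p)).1 h).2.1 rfl

theorem squarefree_caseLevel {a : ℕ} (ha : a.Prime) (hap : a ≠ p) (b : Bool) :
    Squarefree (caseLevel (p := p) hΔ a b) := by
  have hQ := fun q hq => prime_of_mem_casePrimes (p := p) (q := q) hΔ ha hq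
  refine (Nat.squarefree_mul (Nat.Coprime.prod_right fun q hq => ?_)).2 ⟨?_,
    Finset.squarefree_prod_of_pairwise_isCoprime
      (fun _ hx _ hy hne => Nat.coprime_iff_isRelPrime.mp
        ((Nat.coprime_primes (hQ _ hx) (hQ _ hy)).2 hne)) fun q hq => (hQ q hq).squarefree⟩
  · cases b
    · exact Nat.coprime_one_left q
    · exact (Nat.coprime_primes (Fact.out : p.Prime) (hQ q hq)).2 fun h =>
        p_notMem_casePrimes (p := p) hΔ hap (h.symm.subst (motive := fun x => x ∈ casePrimes (p := p) hΔ a) hq)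
  · cases b
    · exact squarefree_one
    · exact (Fact.out : p.Prime).squarefree

/-- A residually modular squarefree level gives the minimal one. -/
theorem modular_caseLevel (hlow : RT.Lower.LowerToRamified) (hW : W.IsSemistableModel)
    (hp2 : p ≠ 2) (hirr : W.ModRepIsIrreducible p) {a : ℕ} (ha : a.Prime) (hap : a ≠ p) {b : Bool}
    {N : ℕ} (hN : Squarefree N) (hpN : p ∣ N → b = true)
    (hres : W.IsResiduallyModularOfLevel p N) :
    W.IsResiduallyModularOfLevel p (caseLevel (p := p) hΔ a b) := by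
  obtain ⟨M, hMN, hM, hram⟩ := hlow W p hΔ hp2 hW hirr N hN hres
  have hMsq : Squarefree M := hN.squarefree_of_dvd hMN
  refine RT.Lower.residuallyModular_raise (squarefree_caseLevel hΔ ha hap b) ?_ hM
  rw [← Nat.prod_primeFactors_of_squarefree hMsq]
  refine Finset.prod_primes_dvd _ (fun q hq => (Nat.prime_of_mem_primeFactors hq).prime)
    fun q hq => ?_
  have hqP := Nat.prime_of_mem_primeFactors hq
  have hqM := Nat.dvd_of_mem_primeFactors hq
  by_cases hqp : q = p
  · rw [hqp, caseLevel, hpN (hqp ▸ hqM.trans hMN), if_pos rfl]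
    exact dvd_mul_right _ _
  · refine Dvd.dvd.mul_left (Finset.dvd_prod_of_mem (fun q => q) (Finset.mem_insert_of_mem ?_)) _
    exact (Curve.mem_ramifiedPrimes hΔ (k := ZMod p)).2 ⟨hqP, hqp, fun h =>
      hram q hqP hqM hqp ((Curve.isUnramifiedAt_residual_iff hΔ (k := ZMod p) q).1 h)⟩

/-- **The case of a curve with a residually modular squarefree level**, containing `p` exactly
when `p` is bad. -/
theorem exists_isCase (hlow : RT.Lower.LowerToRamified) (hW : W.IsSemistableModel) (hp2 : p ≠ 2)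
    (hirr : W.ModRepIsIrreducible p) {a : ℕ} (ha : a.Prime) (hap : a ≠ p) {M₀ : ℕ}
    (hsq : Squarefree M₀) (hpM : p ∣ M₀ → (p : ℤ) ∣ W.Δ)
    (hres : W.IsResiduallyModularOfLevel p M₀) : ∃ b : Bool, IsCase (p := p) hΔ a b := by
  by_cases h : ∃ N : ℕ, Squarefree N ∧ ¬ p ∣ N ∧ W.IsResiduallyModularOfLevel p N
  · obtain ⟨N, hN, hpN, hresN⟩ := h
    exact ⟨false, modular_caseLevel hΔ hlow hW hp2 hirr ha hap hN (fun h => absurd h hpN) hresN,
      nofun, nofun⟩
  · push Not at h
    exact ⟨true, modular_caseLevel hΔ hlow hW hp2 hirr ha hap hsq (fun _ => rfl) hres,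
      fun _ => hpM (by_contra fun hp => h M₀ hsq hp hres), fun _ => h⟩

/-- The auxiliary prime outside `S` and the case, from a residually modular squarefree level. -/
theorem exists_auxiliary_case (hlow : RT.Lower.LowerToRamified) (hW : W.IsSemistableModel)
    (hp2 : p ≠ 2) (hirr : W.ModRepIsIrreducible p) {M₀ : ℕ} (hsq : Squarefree M₀)
    (hpM : p ∣ M₀ → (p : ℤ) ∣ W.Δ) (hres : W.IsResiduallyModularOfLevel p M₀) (S : Finset ℕ) :
    ∃ (a : ℕ) (b : Bool), a ∉ S ∧ IsAuxiliary W p a ∧ IsCase (p := p) hΔ a b := by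
  obtain ⟨a, haS, ha⟩ := exists_isAuxiliary hΔ hW hp2 hirr S
  obtain ⟨b, hb⟩ := exists_isCase hΔ hlow hW hp2 hirr ha.prime ha.ne hsq hpM hres
  exact ⟨a, b, haS, ha, hb⟩

end Setup

namespace Ctx

variable {O : Type} [CommRing O] [IsDomain O] [IsDiscreteValuationRing O]
  {p : ℕ} [Fact p.Prime] (C : Ctx O p)

theorem base_of_isCase {b : Bool} (h : Setup.IsCase (p := p) C.delta_ne C.a b) : C.Base b :=
  ⟨h.modular, h.bad, h.pnew⟩

theorem squarefree_baseLevel (b : Bool) : Squarefree (C.baseLevel b) :=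
  Setup.squarefree_caseLevel C.delta_ne C.a_prime C.a_ne b

theorem mem_badSet {ℓ : ℕ} (hℓ : ℓ.Prime) {b : Bool}
    (h : ℓ = p ∨ ℓ ∣ C.baseLevel b ∨ (ℓ : ℤ) ∣ C.W.Δ) : ℓ ∈ C.badSet := by
  have hΔ : ∀ {q : ℕ}, q.Prime → (q : ℤ) ∣ C.W.Δ → q ∈ C.badSet := fun hq h =>
    Finset.mem_insert_of_mem (Finset.mem_insert_of_mem (Nat.mem_primeFactors.2
      ⟨hq, Int.natCast_dvd.1 h, Int.natAbs_ne_zero.2 C.delta_ne⟩))
  rcases h with h | h | h
  · exact Finset.mem_insert.2 (Or.inl h)
  · rcases hℓ.dvd_mul.1 h with h | h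
    · cases b
      · exact absurd h hℓ.not_dvd_one
      · exact Finset.mem_insert.2 (Or.inl ((Nat.prime_dvd_prime_iff_eq hℓ Fact.out).1 h))
    · obtain ⟨q, hq, hℓq⟩ := (Nat.prime_iff.1 hℓ).exists_mem_finset_dvd h
      obtain rfl := (Nat.prime_dvd_prime_iff_eq hℓ (C.prime_of_mem_basePrimes hq)).1 hℓq
      rcases Finset.mem_insert.1 hq with rfl | hq
      · exact Finset.mem_insert_of_mem (Finset.mem_insert_self _ _)
      · exact hΔ hℓ (Curve.dvd_Δ_of_mem_ramifiedPrimes C.delta_ne hq)
  · exact hΔ hℓ h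

variable [CharP (ResidueField O) p]

/-- Residual modularity as a congruence with the residual system. -/
theorem isResiduallyModularOfLevel_iff {S : Finset ℕ} {M : ℕ}
    (hS : ∀ ℓ : ℕ, ℓ.Prime → (ℓ = p ∨ ℓ ∣ M ∨ (ℓ : ℤ) ∣ C.W.Δ) → ℓ ∈ S) :
    C.W.IsResiduallyModularOfLevel p M ↔ IsCongruentLevel S C.abar M := by
  let : Algebra (ZMod p) (ResidueField O) := ZMod.algebra _ p
  exact RT.Lower.isResiduallyModularOfLevel_iff_isCongruentLevel (k := ResidueField O) C.delta_ne hS

/-- The minimal level as a congruence. -/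
theorem Base.isCongruentLevel {b : Bool} (h : C.Base b) :
    IsCongruentLevel C.badSet C.abar (C.baseLevel b) :=
  (C.isResiduallyModularOfLevel_iff fun _ hℓ => C.mem_badSet hℓ).1 h.modular

/-- The congruent newform below the minimal level. -/
theorem Base.exists_newform {b : Bool} (h : C.Base b) :
    ∃ M : ℕ, M ∣ C.baseLevel b ∧ ∃ g : CuspForm (CongruenceSubgroup.Gamma0 M) 2, g.IsNewform ∧
      IsCongruentForm C.badSet C.abar g := by
  have h' := RT.Lower.exists_congruent_newform (k := ResidueField O) (C.baseLevel_pos b).ne'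
    h.isCongruentLevel
  rwa [Finset.union_eq_left.2 fun ℓ hℓ => C.mem_badSet (Nat.prime_of_mem_primeFactors hℓ)
    (Or.inr (Or.inl (Nat.dvd_of_mem_primeFactors hℓ)))] at h'

end Ctx

end Fermat.Agent.Lifting

end
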