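import Fermat.Agent.RT.Assembly.Coeff

/-!
# Coefficients containing a given algebraic system

For a finite `ℤ`-subalgebra `R` of `ℂ` and a prime `P` over `p`, a coefficient ring receiving `R`
so that `P` is the kernel of reduction, and having in addition the properties of
`RT.Assembly.exists_coeff`.
-/

set_option autoImplicit false
set_option linter.style.haveILetI false

noncomputable section

namespace Fermat.Agent.Lifting.Setup

open IsLocalRing Polynomial Fermat.Agent.RT.Germ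
open scoped TensorProduct

set_option backward.isDefEq.respectTransparency false in
/-- A prime over `p` is where some character to the algebraic closure of the fraction field of
`ℤ_[p]` has no integral inverse. -/
theorem exists_hom_of_prime {p : ℕ} [Fact p.Prime] {A : Type} [CommRing A] [Module.Finite ℤ A]
    [IsAddTorsionFree A] (P : Ideal A) [P.IsPrime] (hp : (p : A) ∈ P) :
    ∃ θ : A →+* AlgebraicClosure (FractionRing ℤ_[p]),
      ∀ a ∈ P, ∀ y, IsIntegral ℤ_[p] y → θ a * y ≠ 1 := by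
  classical
  set K := AlgebraicClosure (FractionRing ℤ_[p])
  have hchar : CharP (A ⧸ P) p := (CharP.charP_iff_prime_eq_zero Fact.out).2 (by
    rw [← map_natCast (Ideal.Quotient.mk P)]; exact Ideal.Quotient.eq_zero_iff_mem.2 hp)
  let eF : ℤ_[p] →+* A ⧸ P := (ZMod.castHom dvd_rfl (A ⧸ P)).comp PadicInt.toZMod
  letI : Algebra ℤ_[p] (A ⧸ P) := eF.toAlgebra
  let evR : ℤ_[p] ⊗[ℤ] A →ₐ[ℤ_[p]] A ⧸ P :=
    Algebra.TensorProduct.lift (Algebra.ofId ℤ_[p] (A ⧸ P))
      (Ideal.Quotient.mk P).toIntAlgHom fun _ _ => Commute.all _ _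
  have hMprime : (RingHom.ker (evR : ℤ_[p] ⊗[ℤ] A →+* A ⧸ P)).IsPrime := RingHom.ker_isPrime _
  have hfreeA : Module.Free ℤ A := Module.free_of_finite_type_torsion_free'
  obtain ⟨Q, hQ, hQM⟩ := Ideal.exists_minimalPrimes_le
    (I := (⊥ : Ideal (ℤ_[p] ⊗[ℤ] A)))
    (J := RingHom.ker (evR : ℤ_[p] ⊗[ℤ] A →+* A ⧸ P)) bot_le
  have hQprime : Q.IsPrime := hQ.1.1
  have hinj : Function.Injective (algebraMap ℤ_[p] (ℤ_[p] ⊗[ℤ] A ⧸ Q)) := by
    refine (injective_iff_map_eq_zero _).mpr fun c hc => ?_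
    by_contra h0
    refine Set.disjoint_left.mp (Ideal.disjoint_nonZeroDivisors_of_mem_minimalPrimes hQ)
      (Ideal.Quotient.eq_zero_iff_mem.1 hc) ?_
    refine mem_nonZeroDivisors_iff_right.mpr fun x hx => ?_
    have h1 : c • x = 0 := (Algebra.smul_def c x).trans (by rw [mul_comm]; exact hx)
    exact (smul_eq_zero.mp h1).resolve_left h0
  have : Module.IsTorsionFree ℤ_[p] (ℤ_[p] ⊗[ℤ] A ⧸ Q) :=
    Module.isTorsionFree_iff_algebraMap_injective.mpr hinj
  have : Algebra.IsAlgebraic ℤ_[p] (ℤ_[p] ⊗[ℤ] A ⧸ Q) := Algebra.IsIntegral.isAlgebraic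
  have hKinj : Function.Injective (algebraMap ℤ_[p] K) := by
    rw [IsScalarTower.algebraMap_eq ℤ_[p] (FractionRing ℤ_[p]), RingHom.coe_comp]
    exact (algebraMap (FractionRing ℤ_[p]) K).injective.comp (IsFractionRing.injective ℤ_[p] _)
  have : Module.IsTorsionFree ℤ_[p] K := Module.isTorsionFree_iff_algebraMap_injective.mpr hKinj
  let jB : ℤ_[p] ⊗[ℤ] A ⧸ Q →ₐ[ℤ_[p]] K :=
    IsAlgClosed.lift (R := ℤ_[p]) (S := ℤ_[p] ⊗[ℤ] A ⧸ Q) (M := K)
  let ι : A →+* ℤ_[p] ⊗[ℤ] A ⧸ Q :=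
    (Ideal.Quotient.mk Q).comp Algebra.TensorProduct.includeRight.toRingHom
  refine ⟨(jB : _ →+* K).comp ι, fun a ha y hy h1 => ?_⟩
  have hloc := GaloisReps.isLocalRing_of_finite_domain ℤ_[p] (ℤ_[p] ⊗[ℤ] A ⧸ Q)
  have hm : ι a ∈ maximalIdeal (ℤ_[p] ⊗[ℤ] A ⧸ Q) := by
    intro hu
    have hev := hu.map (Ideal.Quotient.lift Q (evR : ℤ_[p] ⊗[ℤ] A →+* A ⧸ P) fun x hx => hQM hx)
    have he : evR ((1 : ℤ_[p]) ⊗ₜ[ℤ] a) = 0 := by
      simpa [evR] using Ideal.Quotient.eq_zero_iff_mem.2 ha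
    have hev' : IsUnit (evR ((1 : ℤ_[p]) ⊗ₜ[ℤ] a)) := hev
    rw [he] at hev'
    exact not_isUnit_zero hev'
  obtain ⟨k, hk⟩ : ∃ k, ι a ^ k ∈
      Ideal.span {algebraMap ℤ_[p] (ℤ_[p] ⊗[ℤ] A ⧸ Q) (p : ℤ_[p])} := by
    show ι a ∈ (Ideal.span {algebraMap ℤ_[p] (ℤ_[p] ⊗[ℤ] A ⧸ Q) (p : ℤ_[p])}).radical
    rw [Ideal.radical_eq_sInf, Ideal.mem_sInf]
    rintro J ⟨hle, hJ⟩
    have hle' : maximalIdeal ℤ_[p] ≤ J.comap (algebraMap ℤ_[p] (ℤ_[p] ⊗[ℤ] A ⧸ Q)) := by
      rw [PadicInt.maximalIdeal_eq_span_p, Ideal.span_le, Set.singleton_subset_iff]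
      exact hle (Ideal.mem_span_singleton_self _)
    have hcm : (J.comap (algebraMap ℤ_[p] (ℤ_[p] ⊗[ℤ] A ⧸ Q))).IsMaximal := by
      rw [← (maximalIdeal.isMaximal ℤ_[p]).eq_of_le (Ideal.IsPrime.comap _).ne_top hle']
      exact maximalIdeal.isMaximal _
    have hJmax : J.IsMaximal :=
      @Ideal.isMaximal_of_isIntegral_of_isMaximal_comap' ℤ_[p] _ (ℤ_[p] ⊗[ℤ] A ⧸ Q) _
        (algebraMap _ _) (algebraMap_isIntegral_iff.mpr inferInstance) J hJ hcm
    rw [IsLocalRing.eq_maximalIdeal hJmax]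
    exact hm
  obtain ⟨b, hb⟩ := Ideal.mem_span_singleton'.1 hk
  set S := integralClosure ℤ_[p] K
  let z : S := ⟨jB b, (Algebra.IsIntegral.isIntegral b).map jB⟩ * ⟨y, hy⟩ ^ k
  have hpz : algebraMap ℤ_[p] S (p : ℤ_[p]) * z = 1 := by
    apply Subtype.ext
    show algebraMap ℤ_[p] K (p : ℤ_[p]) * (jB b * y ^ k) = 1
    rw [← mul_assoc, ← jB.commutes, ← map_mul, mul_comm _ b, hb, map_pow, ← mul_pow]
    exact (congrArg (· ^ k) h1).trans (one_pow k)
  have hSloc : IsLocalHom (algebraMap ℤ_[p] S) :=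
    RingHom.IsIntegral.isLocalHom (algebraMap_isIntegral_iff.mpr inferInstance) fun u v huv =>
      hKinj (congrArg Subtype.val huv)
  exact PadicInt.p_nonunit (p := p) (isUnit_of_map_unit (algebraMap ℤ_[p] S) _
    (IsUnit.of_mul_eq_one _ hpz))

/-- **The coefficient ring of a given system.** -/
theorem exists_coeff_of_prime (p : ℕ) [Fact p.Prime] (R : Subalgebra ℤ ℂ) [Module.Finite ℤ R]
    (P : Ideal R) [P.IsPrime] (hP : (p : R) ∈ P) :
    ∃ (O : Type) (_ : CommRing O) (_ : IsDomain O) (_ : IsDiscreteValuationRing O)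
      (_ : IsAdicComplete (maximalIdeal O) O) (_ : Finite (ResidueField O)) (_ : CharZero O)
      (_ : CharP (ResidueField O) p),
      (p : O) ∈ maximalIdeal O ∧ (∃ ζ : O, IsPrimitiveRoot ζ p) ∧
      (∀ f : (ZMod p)[X], f.natDegree = 2 →
        ∃ x : ResidueField O, (f.map (ZMod.castHom dvd_rfl _)).IsRoot x) ∧
      (∃ φ : O →+* ball1 ℂ_[p], Function.Injective φ ∧
        ∀ c ∈ maximalIdeal O, ‖(φ c : ℂ_[p])‖ < 1) ∧
      ∃ θ : R →+* O, Function.Injective θ ∧ RingHom.ker ((residue O).comp θ) = P := by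
  classical
  have hp : p.Prime := Fact.out
  have h4 : 4 ≤ p ^ 2 := by nlinarith [hp.two_le]
  have : Finite (ResidueField ℤ_[p]) :=
    Finite.of_equiv _ (PadicInt.residueField (p := p)).symm.toEquiv
  set N := p * (p ^ 2 - 1)
  have hN : N ≠ 0 := Nat.mul_ne_zero hp.ne_zero (by omega)
  have : NeZero N := ⟨hN⟩
  set K := AlgebraicClosure (FractionRing ℤ_[p])
  have : CharZero (FractionRing ℤ_[p]) :=
    charZero_of_injective_algebraMap (IsFractionRing.injective ℤ_[p] _)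
  -- enlarge the algebra by roots of unity
  set μ := Complex.exp (2 * Real.pi * Complex.I / N)
  have hμ : IsPrimitiveRoot μ N := Complex.isPrimitiveRoot_exp N hN
  have : Module.Finite ℤ (Algebra.adjoin ℤ ({μ} : Set ℂ)) :=
    Module.Finite.iff_fg.2 (hμ.isIntegral (Nat.pos_of_ne_zero hN)).fg_adjoin_singleton
  let R' : Subalgebra ℤ ℂ := R ⊔ Algebra.adjoin ℤ {μ}
  have : Module.Finite ℤ R' := Subalgebra.finite_sup _ _
  let incl : R →ₐ[ℤ] R' := Subalgebra.inclusion le_sup_left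
  have hincl : Function.Injective incl := Subalgebra.inclusion_injective _
  obtain ⟨P', hP'prime, hP'⟩ : ∃ P' : Ideal R', P'.IsPrime ∧ P'.comap incl.toRingHom = P := by
    letI := incl.toRingHom.toAlgebra
    have : IsScalarTower ℤ R R' := IsScalarTower.of_algebraMap_eq' (Subsingleton.elim _ _)
    have : Algebra.IsIntegral R R' := Algebra.IsIntegral.tower_top ℤ
    obtain ⟨P', -, h1, h2⟩ := Ideal.exists_ideal_over_prime_of_isIntegral P (⊥ : Ideal R') (by
      rw [← RingHom.ker_eq_comap_bot,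
        (RingHom.injective_iff_ker_eq_bot (algebraMap R R')).mp hincl]
      exact bot_le)
    exact ⟨P', h1, h2⟩
  obtain ⟨θK, hθK⟩ := exists_hom_of_prime (p := p) P' (by
    have h := (SetLike.ext_iff.1 hP' (p : R)).2 hP
    rwa [Ideal.mem_comap, map_natCast] at h)
  have hθKinj : Function.Injective θK := by
    rw [RingHom.injective_iff_ker_eq_bot]
    have := RingHom.ker_isPrime θK
    refine Ideal.eq_bot_of_comap_eq_bot (R := ℤ) (eq_bot_iff.2 fun z hz => ?_)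
    rw [Ideal.mem_comap, RingHom.mem_ker, eq_intCast, map_intCast, Int.cast_eq_zero] at hz
    exact hz ▸ zero_mem _
  obtain ⟨O, i1, i2, i3, i4, i5, i6, i7, i8, i9, j, θ', hinj, hjinj, hj, hjθ⟩ :=
    GaloisReps.exists_coeffExt ℤ_[p] θK
  have hθ'inj : Function.Injective θ' := fun a b h => hθKinj (by
    rw [← hjθ, RingHom.comp_apply, RingHom.comp_apply, h])
  have hpO : (p : O) ∈ maximalIdeal O := by
    rw [← map_natCast (algebraMap ℤ_[p] O)]
    exact map_nonunit (algebraMap ℤ_[p] O) _ (by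
      rw [PadicInt.maximalIdeal_eq_span_p]; exact Ideal.mem_span_singleton_self _)
  have hchar : CharP (ResidueField O) p := (CharP.charP_iff_prime_eq_zero hp).2 (by
    rw [← map_natCast (residue O), residue_eq_zero_iff]; exact hpO)
  have hres : ∀ a ∈ P', θ' a ∈ maximalIdeal O := by
    intro a ha hu
    obtain ⟨v, hv⟩ := hu.exists_right_inv
    refine hθK a ha (j v) ?_ ?_
    · obtain ⟨q, hq, hq0⟩ := Algebra.IsIntegral.isIntegral (R := ℤ_[p]) v
      refine ⟨q, hq, ?_⟩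
      rw [← hj, ← Polynomial.hom_eval₂, hq0, map_zero]
    · rw [← hjθ, RingHom.comp_apply, ← map_mul, hv, map_one]
  have hker : RingHom.ker ((residue O).comp (θ'.comp incl.toRingHom)) = P := by
    have hmax : P.IsMaximal := by
      refine Ideal.IsPrime.isMaximal ‹_› fun h => ?_
      rw [h, Ideal.mem_bot] at hP
      exact hp.ne_zero (Nat.cast_eq_zero.1 hP)
    refine (hmax.eq_of_le (RingHom.ker_ne_top _) fun a ha => ?_).symm
    rw [RingHom.mem_ker, RingHom.comp_apply, residue_eq_zero_iff]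
    exact hres _ ((SetLike.ext_iff.1 hP' a).2 ha)
  set μO := θ' ⟨μ, (le_sup_right : _ ≤ R') (Algebra.self_mem_adjoin_singleton ℤ μ)⟩
  have hμO : IsPrimitiveRoot μO N :=
    (IsPrimitiveRoot.of_map_of_injective (f := R'.val) hμ Subtype.val_injective).map_of_injective
      hθ'inj
  have hω : IsPrimitiveRoot (residue O (μO ^ p)) (p ^ 2 - 1) := by
    have h1 : IsPrimitiveRoot (μO ^ p) (p ^ 2 - 1) := hμO.pow (Nat.pos_of_ne_zero hN) rfl
    have : NeZero ((p ^ 2 - 1 : ℕ) : ResidueField O) := ⟨fun h => by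
      rw [CharP.cast_eq_zero_iff (ResidueField O) p] at h
      have h5 := Nat.dvd_sub (dvd_pow_self p two_ne_zero) h
      rw [Nat.sub_sub_self (by omega)] at h5
      exact hp.one_lt.ne' (Nat.dvd_one.mp h5)⟩
    have h2 := (h1.isRoot_cyclotomic (by omega)).map (f := residue O)
    rw [map_cyclotomic] at h2
    exact isRoot_cyclotomic_iff.mp h2
  refine ⟨O, i1, i2, i3, i4, i5, i6, hchar, hpO,
    ⟨μO ^ (p ^ 2 - 1), hμO.pow (Nat.pos_of_ne_zero hN) (mul_comm _ _)⟩,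
    RT.Assembly.exists_root_quadratic hω, ?_, θ'.comp incl.toRingHom, hθ'inj.comp hincl, hker⟩
  let ψ : ℤ_[p] →+* ℂ_[p] := (algebraMap ℚ_[p] ℂ_[p]).comp (algebraMap ℤ_[p] ℚ_[p])
  letI := ψ.toAlgebra
  have hψinj : Function.Injective (algebraMap ℤ_[p] ℂ_[p]) :=
    (algebraMap ℚ_[p] ℂ_[p]).injective.comp (IsFractionRing.injective ℤ_[p] ℚ_[p])
  have : Module.IsTorsionFree ℤ_[p] ℂ_[p] :=
    Module.isTorsionFree_iff_algebraMap_injective.mpr hψinj
  have : Module.IsTorsionFree ℤ_[p] O := Module.isTorsionFree_iff_algebraMap_injective.mpr hinj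
  have : Algebra.IsAlgebraic ℤ_[p] O := Algebra.IsIntegral.isAlgebraic
  let φ₀ : O →ₐ[ℤ_[p]] ℂ_[p] := IsAlgClosed.lift
  have hnorm : ∀ x : ℤ_[p], ‖ψ x‖ ≤ 1 := fun x => by
    show ‖algebraMap ℚ_[p] ℂ_[p] (x : ℚ_[p])‖ ≤ 1
    rw [norm_algebraMap']
    exact x.norm_le_one
  have hball : ∀ c : O, φ₀ c ∈ ball1 ℂ_[p] := fun c => by
    refine RT.Algebra.norm_le_one_of_isIntegral ?_
    obtain ⟨q, hq, hq0⟩ := (Algebra.IsIntegral.isIntegral (R := ℤ_[p]) c).map φ₀
    refine ⟨q.map (ψ.codRestrict (ball1 ℂ_[p]) hnorm), hq.map _, ?_⟩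
    rw [eval₂_map]
    exact hq0
  refine ⟨φ₀.toRingHom.codRestrict _ hball, fun a b h => ?_, fun c hc => ?_⟩
  · have hker0 : RingHom.ker φ₀.toRingHom = ⊥ :=
      Ideal.eq_bot_of_comap_eq_bot (R := ℤ_[p]) (by
        rw [eq_bot_iff]
        intro z hz
        refine hψinj ?_
        rw [map_zero, ← AlgHom.commutes φ₀]
        exact hz)
    exact (RingHom.injective_iff_ker_eq_bot _).mpr hker0 (congrArg Subtype.val h)
  · show ‖φ₀ c‖ < 1
    obtain ⟨ϖ, hϖ⟩ := IsDiscreteValuationRing.exists_irreducible O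
    obtain ⟨k, u, hpu⟩ := IsDiscreteValuationRing.eq_unit_mul_pow_irreducible
      (show (p : O) ≠ 0 from Nat.cast_ne_zero.mpr hp.ne_zero) hϖ
    have hk0 : k ≠ 0 := by
      rintro rfl
      exact hpO (hpu ▸ by simp)
    obtain ⟨w, hw⟩ := Ideal.mem_span_singleton'.1 (hϖ.maximalIdeal_eq ▸ hc)
    have hck : c ^ k = (w ^ k * (↑u⁻¹ : O)) * (p : O) := by
      rw [← hw, mul_pow, hpu, mul_assoc, Units.inv_mul_cancel_left]
    have hp1 : ‖(p : ℂ_[p])‖ < 1 := by
      rw [← map_natCast (algebraMap ℚ_[p] ℂ_[p]), norm_algebraMap']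
      exact Padic.norm_p_lt_one
    have h1 : ‖φ₀ c‖ ^ k < 1 := by
      rw [← norm_pow, ← map_pow, hck, map_mul, map_natCast, norm_mul]
      exact (mul_le_of_le_one_left (norm_nonneg _) (hball _)).trans_lt hp1
    exact (pow_lt_one_iff_of_nonneg (norm_nonneg _) hk0).mp h1

end Fermat.Agent.Lifting.Setup
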