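import Fermat.Agent.RT.Glue.Points
import Mathlib.FieldTheory.IsAlgClosed.Classification

/-!
# An embedding of the coefficients extending a given one of a countable subring
-/

set_option autoImplicit false
set_option linter.style.haveILetI false

noncomputable section

open Cardinal IsLocalRing
open scoped Cardinal

namespace Fermat.Agent.Lifting.Setup

/-- Two uncountable algebraically closed fields of the same cardinality containing a countable
domain are isomorphic over it. -/
theorem exists_ringEquiv_over {R K L : Type} [CommRing R] [IsDomain R] [Countable R]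
    [Field K] [Field L] [IsAlgClosed K] [IsAlgClosed L] [Algebra R K] [Algebra R L]
    [FaithfulSMul R K] [FaithfulSMul R L] (hK : ℵ₀ < #K) (hKL : #K = #L) :
    ∃ e : K ≃+* L, ∀ r, e (algebraMap R K r) = algebraMap R L r := by
  obtain ⟨s, hs⟩ := exists_isTranscendenceBasis R K
  obtain ⟨t, ht⟩ := exists_isTranscendenceBasis R L
  have hR : #R ≤ ℵ₀ := Cardinal.mk_le_aleph0
  have h1 := IsAlgClosed.cardinal_eq_cardinal_transcendence_basis_of_aleph0_lt' _ hs hR hK
  have h2 := IsAlgClosed.cardinal_eq_cardinal_transcendence_basis_of_aleph0_lt' _ ht hR (hKL ▸ hK)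
  obtain ⟨e₀⟩ := Cardinal.eq.1 (h1.symm.trans (hKL.trans h2))
  letI := IsAlgClosed.isAlgClosure_of_transcendence_basis (R := R) (Subtype.val : s → K) hs
  letI := IsAlgClosed.isAlgClosure_of_transcendence_basis (R := R) (Subtype.val : t → L) ht
  let ea : Algebra.adjoin R (Set.range (Subtype.val : s → K)) ≃ₐ[R]
      Algebra.adjoin R (Set.range (Subtype.val : t → L)) :=
    hs.1.aevalEquiv.symm.trans ((MvPolynomial.renameEquiv R e₀).trans ht.1.aevalEquiv)
  refine ⟨IsAlgClosure.equivOfEquiv K L ea.toRingEquiv, fun r => ?_⟩
  rw [IsScalarTower.algebraMap_apply R (Algebra.adjoin R (Set.range (Subtype.val : s → K))) K,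
    IsAlgClosure.equivOfEquiv_algebraMap, IsScalarTower.algebraMap_apply R
      (Algebra.adjoin R (Set.range (Subtype.val : t → L))) L]
  exact congrArg _ (ea.commutes r)

/-- A complete discrete valuation ring of characteristic zero with finite residue field embeds into
`ℂ` compatibly with a given embedding of a countable subring. -/
theorem exists_embedding_extends {O : Type} [CommRing O] [IsDomain O] [IsDiscreteValuationRing O]
    [IsAdicComplete (maximalIdeal O) O] [Finite (ResidueField O)] [CharZero O]
    {R : Type} [CommRing R] [IsDomain R] [Countable R] (θ : R →+* O) (hθ : Function.Injective θ)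
    (j : R →+* ℂ) (hj : Function.Injective j) :
    ∃ σ : O →+* ℂ, Function.Injective σ ∧ σ.comp θ = j := by
  set F := FractionRing O
  have : CharZero F := charZero_of_injective_algebraMap (IsFractionRing.injective O F)
  set P := MvPolynomial ℂ F
  set E := FractionRing P
  set K := AlgebraicClosure E
  have hP : #P = 𝔠 := by
    rw [MvPolynomial.cardinalMk_eq_max]
    simp only [mk_complex]
    refine le_antisymm (max_le (max_le ?_ le_rfl) aleph0_le_continuum)
      ((le_max_right _ _).trans (le_max_left _ _))
    exact (IsFractionRing.cardinalMk (R := O) F).trans_le (RT.Glue.cardinalMk_le_continuum O)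
  have hE : #E = 𝔠 := (IsFractionRing.cardinalMk (R := P) E).trans hP
  have hK : #K = 𝔠 := by
    refine le_antisymm ((Algebra.IsAlgebraic.cardinalMk_le_max E K).trans
      (max_le hE.le aleph0_le_continuum)) ?_
    rw [← hE]
    exact mk_le_of_injective (algebraMap E K).injective
  let ι : O →+* K := (algebraMap E K).comp ((algebraMap P E).comp
    ((algebraMap F P).comp (algebraMap O F)))
  have hι : Function.Injective ι :=
    (algebraMap E K).injective.comp ((IsFractionRing.injective P E).comp
      ((algebraMap F P).injective.comp (IsFractionRing.injective O F)))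
  letI : Algebra R K := (ι.comp θ).toAlgebra
  letI : Algebra R ℂ := j.toAlgebra
  have : FaithfulSMul R K := (faithfulSMul_iff_algebraMap_injective R K).2 (hι.comp hθ)
  have : FaithfulSMul R ℂ := (faithfulSMul_iff_algebraMap_injective R ℂ).2 hj
  obtain ⟨e, he⟩ := exists_ringEquiv_over (R := R) (K := K) (L := ℂ)
    (by rw [hK]; exact aleph0_lt_continuum) (hK.trans mk_complex.symm)
  exact ⟨e.toRingHom.comp ι, e.injective.comp hι, RingHom.ext he⟩

end Fermat.Agent.Lifting.Setup
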