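import Fermat.Agent.RT.GammaH.Lattice
import Fermat.Agent.Lifting.Setup.Algebra

/-!
# An integral eigenvector of a congruent system

The system of an eigenform on `Γ₀(M)` lives on the lattice `Hom(Γ₀(M), ℤ)`; over a coefficient
ring receiving its values it has an eigenvector, which gives a point of the algebra of the level.
-/

set_option autoImplicit false
set_option linter.style.haveILetI false

noncomputable section

namespace Fermat.Agent.Lifting.Setup

open CongruenceSubgroup MvPolynomial IsLocalRing ModularFormClass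
open Fermat.Agent.RT.GammaH Degeneracy
open Fermat.Agent.Periods.Congruence (per per_injective)
open scoped MatrixGroups ModularForm

variable {M : ℕ} [NeZero M] (S : Finset ℕ) (g : CuspForm (Gamma0 M) 2)

/-- The system of a form on the integral operators. -/
def sysHom : OpRing ℤ M S →ₐ[ℤ] ℂ := aeval (Sum.elim 1 fun ℓ => qCoeff g ℓ.1)

omit [NeZero M] in
theorem sysHom_inl (u : (ZMod M)ˣ) : sysHom S g (X (Sum.inl u)) = 1 := by simp [sysHom]

omit [NeZero M] in
theorem sysHom_inr (ℓ : {ℓ : ℕ // ℓ.Prime ∧ ℓ ∉ S}) :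
    sysHom S g (X (Sum.inr ℓ)) = qCoeff g ℓ.1 := by simp [sysHom]

variable {g}

/-- The system has a complex eigenvector in the coordinates of a basis of the lattice. -/
theorem exists_lattice_eigvec (hg : g.IsNormalizedEigenform) :
    ∃ (ι : Type) (_ : Fintype ι) (b : ι → HomMod ℤ S (⊤ : Subgroup (ZMod M)ˣ) ℤ)
      (A : OpRing ℤ M S → ι → ι → ℤ) (w : ι → ℂ),
      LinearIndependent ℤ b ∧ w ≠ 0 ∧
      (∀ q j, q • b j = ∑ i, A q i j • b i) ∧
      (∀ q i, ∑ j, (A q i j : ℂ) * w j = sysHom S g q * w i) ∧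
      ∀ q, (∀ j, q • b j = 0) → sysHom S g q = 0 := by
  classical
  set gH : FormH M (⊤ : Subgroup (ZMod M)ˣ) := toFormH g
  set v : HomC (⊤ : Subgroup (ZMod M)ˣ) := per gH
  have hv : v ≠ 0 := fun h => by
    have h1 : gH = 0 := per_injective Gamma_le_gammaH h
    exact hg.ne_zero (DFunLike.coe_injective (congrArg (fun F : FormH M _ => (⇑F : _ → ℂ)) h1))
  set θ := sysHom S g
  have heig : ∀ q, opC ℤ S (⊤ : Subgroup (ZMod M)ˣ) q v = θ q • v := by
    intro q
    induction q using MvPolynomial.induction_on with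
    | C z => rw [opC_C, Module.algebraMap_end_apply, ← algebraMap_eq, AlgHom.commutes]
    | add a b ha hb => rw [map_add, map_add, LinearMap.add_apply, ha, hb, add_smul]
    | mul_X a i ha =>
      have hi : opC ℤ S (⊤ : Subgroup (ZMod M)ˣ) (X i) v = θ (X i) • v := by
        rcases i with u | ℓ
        · rw [opC_inl, diamond_top, sysHom_inl, one_smul]
        · have : Fact ℓ.1.Prime := ⟨ℓ.2.1⟩
          rw [opC_inr, sysHom_inr, ← per_heckeForm, heckeForm_toFormH hg, per_smul]
      rw [map_mul, map_mul, Module.End.mul_apply, hi, map_smul, ha, smul_smul, mul_comm]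
  set HZ := HomMod ℤ S (⊤ : Subgroup (ZMod M)ˣ) ℤ
  have : Module.Free ℤ HZ := by exact instFreeHomMod
  have : Module.Finite ℤ HZ := by exact instFiniteHomMod
  set bZ := Module.Free.chooseBasis ℤ HZ
  let A : OpRing ℤ M S → Matrix _ _ ℤ := fun q =>
    LinearMap.toMatrixAlgEquiv bZ (opAct ℤ S (⊤ : Subgroup (ZMod M)ˣ) ℤ q)
  have hA : ∀ q j, q • bZ j = ∑ i, A q i j • bZ i := fun q j => by
    refine (bZ.sum_repr (q • bZ j)).symm.trans (Finset.sum_congr rfl fun i _ => ?_)
    exact congrArg (· • bZ i)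
      (LinearMap.toMatrixAlgEquiv_apply bZ (opAct ℤ S (⊤ : Subgroup (ZMod M)ˣ) ℤ q) i j).symm
  set yC : _ → HomC (⊤ : Subgroup (ZMod M)ˣ) := fun j => toHomC (bZ j) with hyC
  obtain ⟨r, w₀, ψ, hψ⟩ := exists_int_decomp v
  obtain ⟨w, hw⟩ : ∃ w : Module.Free.ChooseBasisIndex ℤ HZ → ℂ, ∑ j, w j • yC j = v := by
    refine (Submodule.mem_span_range_iff_exists_fun ℂ).1 ?_
    have hv' : v = ∑ i, w₀ i • toHomC (toHomMod (ψ i) : HZ) := by
      refine AddMonoidHom.ext fun γ => ?_
      rw [hψ γ, AddMonoidHom.finsetSum_apply]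
      exact Finset.sum_congr rfl fun i _ => rfl
    rw [hv']
    refine sum_mem fun i _ => Submodule.smul_mem _ _ ?_
    rw [← bZ.sum_repr (toHomMod (ψ i) : HZ), map_sum]
    refine sum_mem fun j _ => ?_
    rw [map_smul, smul_homC]
    exact Submodule.smul_mem _ _ (Submodule.subset_span ⟨j, rfl⟩)
  have hliC : LinearIndependent ℂ yC :=
    linearIndependent_coeff (R := ℤ) (T := ℂ) (y := fun j => toHomMod.symm (bZ j))
      (bZ.linearIndependent.map' toHomMod.symm.toLinearMap (LinearEquiv.ker _))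
  have hwne : w ≠ 0 := fun h => hv (by rw [← hw, h]; simp)
  have hmul : ∀ q i, ∑ j, (A q i j : ℂ) * w j = θ q * w i := fun q i => by
    have h := heig q
    rw [← hw] at h
    simp only [map_sum, map_smul, hyC, ← toHomC_smul, hA, map_zsmul,
      ← Int.cast_smul_eq_zsmul ℂ, Finset.smul_sum, smul_smul] at h
    rw [Finset.sum_comm, ← sub_eq_zero, ← Finset.sum_sub_distrib] at h
    simp only [← Finset.sum_smul, ← sub_smul] at h
    have := Fintype.linearIndependent_iff.1 hliC _ h i
    rw [sub_eq_zero] at this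
    rw [← this]
    exact Finset.sum_congr rfl fun j _ => mul_comm _ _
  refine ⟨_, inferInstance, bZ, A, w, bZ.linearIndependent, hwne, hA, hmul, fun q hq => ?_⟩
  obtain ⟨i, hi⟩ := Function.ne_iff.1 hwne
  have hA0 : ∀ i j, A q i j = 0 := fun i j => by
    have := hq j
    rw [hA] at this
    exact Fintype.linearIndependent_iff.1 bZ.linearIndependent _ this i
  have := hmul q i
  simp only [hA0, Int.cast_zero, zero_mul, Finset.sum_const_zero] at this
  exact (mul_eq_zero.1 this.symm).resolve_right hi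

/-- The values of the system form a ring finite over `ℤ`. -/
theorem finite_range_sysHom (hg : g.IsNormalizedEigenform) :
    Module.Finite ℤ (sysHom S g).range := by
  obtain ⟨ι, _, b, A, w, -, -, -, -, hker⟩ := exists_lattice_eigvec S hg
  have : Module.Finite ℤ (HomMod ℤ S (⊤ : Subgroup (ZMod M)ˣ) ℤ) := by exact instFiniteHomMod
  let Φ : OpRing ℤ M S →ₗ[ℤ] ι → HomMod ℤ S (⊤ : Subgroup (ZMod M)ˣ) ℤ :=
    LinearMap.pi fun j =>
      (LinearMap.toSpanSingleton (OpRing ℤ M S) _ (b j)).restrictScalars ℤ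
  let f : OpRing ℤ M S →ₗ[ℤ] (sysHom S g).range := (sysHom S g).rangeRestrict.toLinearMap
  have hle : LinearMap.ker Φ ≤ LinearMap.ker f := fun q hq =>
    Subtype.ext (hker q fun j => congrFun hq j)
  have : Module.Finite ℤ (OpRing ℤ M S ⧸ LinearMap.ker Φ) :=
    Module.Finite.equiv (LinearMap.quotKerEquivRange Φ).symm
  refine Module.Finite.of_surjective (Submodule.liftQ _ f hle) fun z => ?_
  obtain ⟨q, hq⟩ := AlgHom.rangeRestrict_surjective (sysHom S g) z
  exact ⟨Submodule.Quotient.mk q, hq⟩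

variable {O : Type} [CommRing O] [IsDomain O] [CharZero O]

/-- An eigenvector over coefficients receiving the values of the system. -/
theorem exists_eigvec_coeff (hg : g.IsNormalizedEigenform) (R : Subalgebra ℤ ℂ)
    (hR : ∀ q, sysHom S g q ∈ R) (θR : R →+* O) (hθ : Function.Injective θR) :
    ∃ y : HomMod O S (⊤ : Subgroup (ZMod M)ˣ) O, y ≠ 0 ∧ ∀ q : OpRing ℤ M S,
      MvPolynomial.map (Int.castRingHom O) q • y = θR ⟨sysHom S g q, hR q⟩ • y := by
  classical
  obtain ⟨ι, _, b, A, w, hb, hw, hA, hmul, -⟩ := exists_lattice_eigvec S hg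
  let F := FractionRing R
  letI : Algebra F ℂ := FractionRing.liftAlgebra R ℂ
  haveI : IsScalarTower R F ℂ := FractionRing.isScalarTower_liftAlgebra R ℂ
  let bF := Module.Free.chooseBasis F ℂ
  obtain ⟨i₀, hi₀⟩ := Function.ne_iff.1 hw
  obtain ⟨k, hk⟩ : ∃ k, bF.coord k (w i₀) ≠ 0 := by
    by_contra! h
    exact hi₀ (bF.repr.injective (Finsupp.ext fun k => by simpa using h k))
  have hF : ∀ q i, ∑ j, (A q i j : F) * bF.coord k (w j) =
      algebraMap R F ⟨sysHom S g q, hR q⟩ * bF.coord k (w i) := fun q i => by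
    have hA' : ∀ j, (A q i j : ℂ) * w j = (A q i j : F) • w j := fun j => by
      rw [Algebra.smul_def, map_intCast]
    have hθ' : sysHom S g q * w i = algebraMap R F ⟨sysHom S g q, hR q⟩ • w i := by
      rw [Algebra.smul_def, ← IsScalarTower.algebraMap_apply]
      rfl
    have h := hmul q i
    rw [Finset.sum_congr rfl fun j _ => hA' j, hθ'] at h
    have h' := congrArg (bF.coord k) h
    simp only [map_sum, map_smul, smul_eq_mul] at h'
    exact h'
  obtain ⟨c, hc⟩ := IsLocalization.exist_integer_multiples_of_finite (nonZeroDivisors R)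
    fun j => bF.coord k (w j)
  choose r hr using hc
  have hrel : ∀ q i, ∑ j, (A q i j : R) * r j = ⟨sysHom S g q, hR q⟩ * r i := fun q i => by
    refine IsFractionRing.injective R F ?_
    rw [map_sum, map_mul, hr i, Algebra.smul_def, mul_left_comm, ← hF q i, Finset.mul_sum]
    refine Finset.sum_congr rfl fun j _ => ?_
    rw [map_mul, hr j, Algebra.smul_def, map_intCast, mul_left_comm]
  have hr0 : r i₀ ≠ 0 := fun h0 => by
    have := hr i₀
    rw [h0, map_zero, Algebra.smul_def, eq_comm, mul_eq_zero] at this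
    rcases this with h | h
    · exact nonZeroDivisors.coe_ne_zero c ((IsFractionRing.injective R F) (h.trans (map_zero _).symm))
    · exact hk h
  have hli : LinearIndependent O fun j => (algebraMap ℤ O).toAddMonoidHom.comp
      (toHomMod.symm (b j)) :=
    linearIndependent_coeff (R := ℤ) (T := O) (y := fun j => toHomMod.symm (b j))
      (hb.map' toHomMod.symm.toLinearMap (LinearEquiv.ker _))
  set yc : ι → (Additive (gammaH M (⊤ : Subgroup (ZMod M)ˣ)) →+ O) := fun j =>
    (algebraMap ℤ O).toAddMonoidHom.comp (toHomMod.symm (b j)) with hyc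
  set y : HomMod O S (⊤ : Subgroup (ZMod M)ˣ) O := ∑ j, θR (r j) • toHomMod (yc j) with hy
  refine ⟨y, fun h0 => hr0 ?_, fun q => ?_⟩
  · have h := congrArg (toHomMod (O := O) (S := S) (K := (⊤ : Subgroup (ZMod M)ˣ)) (A := O)).symm h0
    simp only [hy, map_sum, map_smul, LinearEquiv.symm_apply_apply, map_zero] at h
    exact hθ ((Fintype.linearIndependent_iff.1 hli _ h i₀).trans (map_zero θR).symm)
  · have key : ∀ j, MvPolynomial.map (Int.castRingHom O) q •
        (toHomMod (yc j) : HomMod O S (⊤ : Subgroup (ZMod M)ˣ) O) =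
        ∑ i, ((A q i j : ℤ) : O) • toHomMod (yc i) := fun j => by
      refine (toHomMod (O := O) (S := S) (K := (⊤ : Subgroup (ZMod M)ˣ)) (A := O)).symm.injective ?_
      rw [map_cast_smul]
      have h1 : q • (toHomMod (yc j) : HomMod ℤ S (⊤ : Subgroup (ZMod M)ˣ) O) =
          mapCoeff (Algebra.linearMap ℤ O) (q • b j) := by
        rw [map_smul]
        rfl
      rw [h1, hA, map_sum, map_sum, map_sum]
      refine Finset.sum_congr rfl fun i _ => ?_
      rw [LinearMap.map_smul_of_tower, map_smul]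
      exact AddMonoidHom.ext fun γ => (Int.cast_smul_eq_zsmul O _ _).symm
    rw [hy, Finset.smul_sum, Finset.smul_sum]
    simp only [smul_comm (MvPolynomial.map (Int.castRingHom O) q), key, Finset.smul_sum, smul_smul]
    rw [Finset.sum_comm]
    refine Finset.sum_congr rfl fun i _ => ?_
    rw [← Finset.sum_smul, ← map_mul, ← hrel q i, map_sum]
    congr 1
    exact Finset.sum_congr rfl fun j _ => by rw [map_mul, map_intCast, mul_comm]

variable [IsDiscreteValuationRing O] [IsAdicComplete (maximalIdeal O) O]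

/-- The point of the algebra of the level at a congruent system. -/
theorem exists_levelT_point (hg : g.IsNormalizedEigenform) {e : ℕ} {K : Subgroup (ZMod M)ˣ}
    (hKtop : K = ⊤) (hK : TwistSub M K e) (abar : ℕ → ResidueField O) (eps : ℕ → O)
    (R : Subalgebra ℤ ℂ) (hR : ∀ q, sysHom S g q ∈ R) (θR : R →+* O) (hθ : Function.Injective θR)
    (α : ℕ → O)
    (hα : ∀ ℓ : ℕ, ℓ.Prime → ℓ ∉ S → ∀ h : qCoeff g ℓ ∈ R, θR ⟨qCoeff g ℓ, h⟩ = α ℓ)
    (hred : ∀ ℓ : ℕ, ℓ.Prime → ℓ ∉ S → residue O (α ℓ) = abar ℓ) :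
    Nontrivial (wEigen S abar hK ∅ eps) ∧
      ∃ x : levelT S abar hK ∅ eps →ₐ[O] O, ∀ ℓ : ℕ, ℓ.Prime → ℓ ∉ S → ℓ.Coprime M →
        x (levelOp S abar hK ∅ eps ℓ) = α ℓ := by
  classical
  subst hKtop
  obtain ⟨y, hy0, hy⟩ := exists_eigvec_coeff S hg R hR θR hθ
  let χ : OpRing O M S →ₐ[O] O := aeval (Sum.elim 1 fun ℓ => α ℓ.1)
  have hact : ∀ t : OpRing O M S, t • y = χ t • y := by
    intro t
    induction t using MvPolynomial.induction_on with
    | C c => rw [← algebraMap_eq, algebraMap_smul, AlgHom.commutes]; rfl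
    | add a b ha hb => rw [add_smul, ha, hb, map_add, add_smul]
    | mul_X a i ha =>
      have hi : (X i : OpRing O M S) • y = χ (X i) • y := by
        have h := hy (X i)
        rw [map_X] at h
        rw [h]
        congr 1
        rcases i with u | ℓ
        · rw [show χ (X (Sum.inl u)) = 1 by simp [χ], ← map_one θR]
          exact congrArg θR (Subtype.ext (sysHom_inl S g u))
        · rw [show χ (X (Sum.inr ℓ)) = α ℓ.1 by simp [χ]]
          exact (congrArg θR (Subtype.ext (sysHom_inr S g ℓ))).trans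
            (hα ℓ.1 ℓ.2.1 ℓ.2.2 (sysHom_inr S g ℓ ▸ hR _))
      rw [mul_smul, hi, smul_comm, ha, smul_smul, map_mul, mul_comm]
  have huniq : ∀ c c' : O, c • y = c' • y → c = c' := by
    intro c c' h
    by_contra hne
    refine hy0 ((toHomMod (O := O) (S := S) (K := (⊤ : Subgroup (ZMod M)ˣ)) (A := O)).symm.injective
      ?_)
    rw [map_zero]
    refine AddMonoidHom.ext fun γ => ?_
    have h' := DFunLike.congr_fun (congrArg
      (toHomMod (O := O) (S := S) (K := (⊤ : Subgroup (ZMod M)ˣ)) (A := O)).symm h) γ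
    rw [map_smul, map_smul] at h'
    exact mul_left_cancel₀ (sub_ne_zero.2 hne) (by
      simp only [AddMonoidHom.zero_apply, mul_zero, sub_mul, sub_eq_zero]
      exact h')
  set e₀ := locElt O S abar (⊤ : Subgroup (ZMod M)ˣ)
  have hloc := isLocalizer_locElt O S abar (⊤ : Subgroup (ZMod M)ˣ)
  have hres : ∀ t, residue O (χ t) = opRes S abar M t := by
    intro t
    refine AlgHom.congr_fun (?_ : (IsScalarTower.toAlgHom O O (ResidueField O)).comp χ =
      opRes S abar M) t
    refine MvPolynomial.algHom_ext fun i => ?_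
    rcases i with u | ℓ
    · simp [χ, opRes_inl]
    · simp [χ, opRes_inr, hred ℓ.1 ℓ.2.1 ℓ.2.2]
  have hχe : χ e₀ = 1 := by
    have h1 : χ e₀ * χ e₀ = χ e₀ := huniq _ _ (by
      have := hloc.idem y
      rwa [hact, smul_comm, hact, smul_smul] at this)
    have h2 : χ e₀ ≠ 0 := fun h0 => by
      have := hloc.sub_one_mem
      rw [mem_resIdeal, map_sub, map_one, ← hres, h0, map_zero, zero_sub, neg_eq_zero] at this
      exact one_ne_zero this
    exact (mul_eq_left₀ h2).1 h1
  have hyW : y ∈ wEigen S abar hK ∅ eps := by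
    rw [wEigen_empty]
    show e₀ • y = y
    rw [hact, hχe, one_smul]
  let yW : wEigen S abar hK ∅ eps := ⟨y, hyW⟩
  have hsc : ∀ t : levelT S abar hK ∅ eps, ∃ c : O,
      (t : Module.End O (wEigen S abar hK ∅ eps)) yW = c • yW := by
    rintro ⟨t, ht⟩
    induction ht using Algebra.adjoin_induction with
    | mem t ht =>
      obtain ⟨ℓ, hℓ, rfl⟩ := ht
      exact ⟨χ (twEl O M S e ℓ hℓ), Subtype.ext ((coe_twAct S abar hK ∅ eps ℓ hℓ yW).trans
        (hact _))⟩
    | algebraMap c => exact ⟨c, rfl⟩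
    | add a b _ _ ha hb =>
      obtain ⟨ca, hca⟩ := ha; obtain ⟨cb, hcb⟩ := hb
      exact ⟨ca + cb, by simp [add_smul] at hca hcb ⊢; rw [hca, hcb]⟩
    | mul a b _ _ ha hb =>
      obtain ⟨ca, hca⟩ := ha; obtain ⟨cb, hcb⟩ := hb
      refine ⟨ca * cb, ?_⟩
      show a (b yW) = _
      rw [hcb, map_smul, hca, smul_smul, mul_comm]
  have huW : ∀ c c' : O, c • yW = c' • yW → c = c' := fun c c' h =>
    huniq c c' (congrArg Subtype.val h)
  choose xf hxf using hsc
  let x : levelT S abar hK ∅ eps →ₐ[O] O :=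
    { toFun := xf
      map_one' := huW _ _ (by rw [← hxf, one_smul]; rfl)
      map_mul' := fun a b => huW _ _ (by
        rw [← hxf]
        show (a : Module.End O _) ((b : Module.End O _) yW) = _
        rw [hxf b, map_smul, hxf a, smul_smul, mul_comm])
      map_zero' := huW _ _ (by rw [← hxf, zero_smul]; rfl)
      map_add' := fun a b => huW _ _ (by rw [← hxf, add_smul, ← hxf a, ← hxf b]; rfl)
      commutes' := fun c => huW _ _ (by rw [← hxf]; rfl) }
  refine ⟨nontrivial_of_ne yW 0 fun h => hy0 (congrArg Subtype.val h), x,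
    fun ℓ hℓ hℓS hℓM => huW _ _ ?_⟩
  show xf _ • yW = _
  rw [← hxf, coe_levelOp S abar hK ∅ eps hℓ hℓS hℓM]
  refine Subtype.ext ((coe_twAct S abar hK ∅ eps ⟨ℓ, hℓ, hℓS⟩ hℓM yW).trans ((hact _).trans ?_))
  show χ _ • y = α ℓ • y
  simp [χ, twEl]

end Fermat.Agent.Lifting.Setup
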