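import Fermat.Agent.Lifting.Setup.Case
import Fermat.Agent.Lifting.Setup.Coeff
import Fermat.Agent.Lifting.Setup.Embed
import Fermat.Agent.Lifting.Setup.System
import Fermat.Agent.ConductorLevel.Raise
import Fermat.Agent.ConductorLevel.Eigen

/-!
# The coefficients and the base point of the lifting argument

From a form of level dividing the minimal level and congruent to the curve: coefficients containing
its eigenvalues, the setting over them and the point of the algebra of the minimal level.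
-/

set_option autoImplicit false
set_option linter.style.haveILetI false

noncomputable section

open IsLocalRing MvPolynomial CongruenceSubgroup ModularFormClass
open scoped WeierstrassCurve.Affine

namespace Fermat.Agent.Lifting

open Fermat.Agent.RT.GammaH Degeneracy Setup

local notation "ℤbar" => integralClosure ℤ ℂ

variable {W : WeierstrassCurve ℤ} (hΔ : W.Δ ≠ 0) {p a : ℕ} [Fact p.Prime] (b : Bool)

/-- **The coefficients, the setting and the base point.** -/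
theorem exists_ctx_point (hW : W.IsSemistableModel) (h35 : p = 3 ∨ p = 5)
    (hirr : W.ModRepIsIrreducible p) (haux : IsAuxiliary W p a)
    (sp : ℤ) (hsp1 : sp = 1 ∨ sp = -1)
    (hsp : (p : ℤ) ∣ W.Δ → ∀ P : ValuationSubring (AlgebraicClosure ℚ), P.LiesOverPrime p →
      ∀ σ : Deform.Gal, P.IsFrobeniusAt σ p → (∀ μ : AlgebraicClosure ℚ, μ ^ p = 1 → σ μ = μ) →
        ∀ (k : Type) [Field k] [CharP k p],
          LinearMap.trace k _ ((Curve.residual (p := p) hΔ k).ρ σ) = ((2 * sp : ℤ) : k))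
    {M : ℕ} [NeZero M] (hM : M ∣ caseLevel (p := p) hΔ a b) {g₀ : CuspForm (Gamma0 M) 2}
    (hg₀ : g₀.IsNormalizedEigenform) (𝔪 : Ideal ℤbar) [𝔪.IsMaximal] (hp𝔪 : (p : ℤbar) ∈ 𝔪)
    (hcong : ∀ ℓ : ℕ, ℓ.Prime → W.IsGoodPrimeFor ℓ → ¬ ℓ ∣ caseLevel (p := p) hΔ a b → ℓ ≠ p →
      ∃ z : ℤbar, (z : ℂ) = qCoeff g₀ ℓ ∧ z - ((W.apOfModel ℓ : ℤ) : ℤbar) ∈ 𝔪) :
    ∃ (O : Type) (_ : CommRing O) (_ : IsDomain O) (_ : IsDiscreteValuationRing O)
      (_ : IsAdicComplete (maximalIdeal O) O) (_ : Finite (ResidueField O)) (_ : CharZero O)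
      (_ : CharP (ResidueField O) p) (C : Ctx O p),
      C.W = W ∧ C.a = a ∧ C.sp = sp ∧ C.baseLevel b = caseLevel (p := p) hΔ a b ∧
      (∃ ζ : O, IsPrimitiveRoot ζ p) ∧
      (∃ φ : O →+* RT.Germ.ball1 ℂ_[p], Function.Injective φ ∧
        ∀ c ∈ maximalIdeal O, ‖(φ c : ℂ_[p])‖ < 1) ∧
      ∃ (α : ℕ → O) (σ : O →+* ℂ), Function.Injective σ ∧
        (∀ ℓ : ℕ, ℓ.Prime → σ (α ℓ) = qCoeff g₀ ℓ) ∧
        (∀ ℓ : ℕ, ℓ.Prime → ℓ ∉ C.badSet → residue O (α ℓ) = C.abar ℓ) ∧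
        ∀ (N : ℕ) [NeZero N], N = C.baseLevel b → ∀ (S : Finset ℕ), C.badSet ⊆ S →
          ∀ {K : Subgroup (ZMod N)ˣ}, K = ⊤ → ∀ {e : ℕ} (hK : TwistSub N K e) (eps : ℕ → O),
            Nontrivial (wEigen S C.abar hK ∅ eps) ∧
              ∃ x : levelT S C.abar hK ∅ eps →ₐ[O] O, ∀ ℓ : ℕ, ℓ.Prime → ℓ ∉ S →
                x (levelOp S C.abar hK ∅ eps ℓ) = α ℓ := by
  classical
  have hNsq := squarefree_caseLevel (p := p) hΔ haux.prime haux.ne b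
  haveI : NeZero (caseLevel (p := p) hΔ a b) := ⟨hNsq.ne_zero⟩
  obtain ⟨g, hg, hgg₀⟩ := ConductorLevel.exists_raise hNsq hM hg₀
  -- the ring of the eigenvalues
  set S₀ := (caseLevel (p := p) hΔ a b).primeFactors with hS₀
  set E : Set ℂ := ↑(S₀.image fun q => qCoeff g₀ q) with hE
  have hR1 : Module.Finite ℤ (sysHom S₀ g).range := finite_range_sysHom S₀ hg
  have hR2 : Module.Finite ℤ (Algebra.adjoin ℤ E) := Module.Finite.iff_fg.2
    (fg_adjoin_of_finite (Finset.finite_toSet _) fun x hx => by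
      obtain ⟨q, hq, rfl⟩ := Finset.mem_image.1 (Finset.mem_coe.1 hx)
      exact ConductorLevel.isIntegral_qCoeff hg₀ (Nat.prime_of_mem_primeFactors hq))
  let R : Subalgebra ℤ ℂ := (sysHom S₀ g).range ⊔ Algebra.adjoin ℤ E
  haveI : Module.Finite ℤ R := Subalgebra.finite_sup _ _
  have hmem : ∀ ℓ : ℕ, ℓ.Prime → qCoeff g₀ ℓ ∈ R := by
    intro ℓ hℓ
    by_cases h : ℓ ∈ S₀
    · exact (le_sup_right : _ ≤ R) (Algebra.subset_adjoin
        (Finset.mem_coe.2 (Finset.mem_image_of_mem _ h)))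
    · refine (le_sup_left : _ ≤ R) ⟨X (Sum.inr ⟨ℓ, hℓ, h⟩), ?_⟩
      exact (sysHom_inr S₀ g ⟨ℓ, hℓ, h⟩).trans (hgg₀ ℓ hℓ fun hd =>
        h (Nat.mem_primeFactors.2 ⟨hℓ, hd, NeZero.ne _⟩))
  let incl : R →+* ℤbar := R.val.toRingHom.codRestrict ℤbar fun z =>
    (Algebra.IsIntegral.isIntegral (R := ℤ) z).map R.val
  obtain ⟨O, i1, i2, i3, i4, i5, i6, i7, hpO, hζ, hroots, hφ, θ, hθ, hker⟩ :=
    exists_coeff_of_prime p R (𝔪.comap incl) (by rw [Ideal.mem_comap, map_natCast]; exact hp𝔪)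
  haveI : Countable R := by
    obtain ⟨n, f, hf⟩ := Module.Finite.exists_fin' ℤ R
    exact hf.countable
  obtain ⟨σ, hσ, hσθ⟩ := exists_embedding_extends θ hθ R.val.toRingHom Subtype.val_injective
  let C : Ctx O p :=
    { W := W
      delta_ne := hΔ
      semistable := hW
      three_or_five := h35
      irreducible := hirr
      p_mem := hpO
      roots := fun f hf _ => hroots f hf
      a := a
      a_prime := haux.prime
      a_good := haux.good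
      a_ne := haux.ne
      a_sq := haux.sq _
      a_three := haux.three
      sp := sp
      sp_unit := hsp1
      sp_spec := fun hd P hP τ hτ hμ _ => hsp hd P hP τ hτ hμ _ }
  let α : ℕ → O := fun ℓ => if h : ℓ.Prime then θ ⟨qCoeff g₀ ℓ, hmem ℓ h⟩ else 0
  have hα : ∀ ℓ (hℓ : ℓ.Prime), α ℓ = θ ⟨qCoeff g₀ ℓ, hmem ℓ hℓ⟩ := fun ℓ hℓ => dif_pos hℓ
  have hbad : ∀ {q : ℕ}, q.Prime → q ∣ caseLevel (p := p) hΔ a b → q ∈ C.badSet :=
    fun hq h => C.mem_badSet (b := b) hq (Or.inr (Or.inl h))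
  have hres : ∀ ℓ : ℕ, ℓ.Prime → ℓ ∉ C.badSet → residue O (α ℓ) = C.abar ℓ := by
    intro ℓ hℓ hℓS
    have hgoodℓ : W.IsGoodPrimeFor ℓ := fun hd => hℓS (Finset.mem_insert_of_mem
      (Finset.mem_insert_of_mem (Nat.mem_primeFactors.2
        ⟨hℓ, Int.natCast_dvd.1 hd, Int.natAbs_ne_zero.2 hΔ⟩)))
    obtain ⟨z, hz, hz𝔪⟩ := hcong ℓ hℓ hgoodℓ (fun h => hℓS (hbad hℓ h))
      (fun h => hℓS (Finset.mem_insert.2 (Or.inl h)))
    have h1 : (⟨qCoeff g₀ ℓ, hmem ℓ hℓ⟩ : R) - (W.apOfModel ℓ : R) ∈ 𝔪.comap incl := by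
      rw [Ideal.mem_comap, map_sub, map_intCast, show incl ⟨qCoeff g₀ ℓ, hmem ℓ hℓ⟩ = z from
        Subtype.ext hz.symm]
      exact hz𝔪
    rw [← hker, RingHom.mem_ker, map_sub, map_intCast, sub_eq_zero] at h1
    rw [hα ℓ hℓ]
    exact h1
  refine ⟨O, i1, i2, i3, i4, i5, i6, i7, C, rfl, rfl, rfl, rfl, hζ, hφ, α, σ, hσ,
    fun ℓ hℓ => ?_, hres, ?_⟩
  · rw [hα ℓ hℓ]
    exact RingHom.congr_fun hσθ _
  intro N _ hN S hS K hKtop e hK eps
  have hN' : N = caseLevel (p := p) hΔ a b := hN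
  subst hN'
  have hgS : ∀ {ℓ : ℕ}, ℓ.Prime → ℓ ∉ S → ¬ ℓ ∣ caseLevel (p := p) hΔ a b :=
    fun hℓ hℓS h => hℓS (hS (hbad hℓ h))
  have hR : ∀ q, sysHom S g q ∈ R := by
    intro q
    induction q using MvPolynomial.induction_on with
    | C z => rw [← algebraMap_eq, AlgHom.commutes]; exact algebraMap_mem R z
    | add a b ha hb => rw [map_add]; exact add_mem ha hb
    | mul_X a i ha =>
      rw [map_mul]
      refine mul_mem ha ?_
      rcases i with u | ℓ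
      · rw [sysHom_inl]; exact one_mem R
      · rw [sysHom_inr, hgg₀ ℓ.1 ℓ.2.1 (hgS ℓ.2.1 ℓ.2.2)]
        exact hmem ℓ.1 ℓ.2.1
  obtain ⟨hnt, x, hx⟩ := exists_levelT_point S hg hKtop hK C.abar eps R hR θ hθ α
    (fun ℓ hℓ hℓS h => by
      rw [hα ℓ hℓ]
      exact congrArg θ (Subtype.ext (hgg₀ ℓ hℓ (hgS hℓ hℓS))))
    (fun ℓ hℓ hℓS => hres ℓ hℓ fun h => hℓS (hS h))
  exact ⟨hnt, x, fun ℓ hℓ hℓS => hx ℓ hℓ hℓS (hℓ.coprime_iff_not_dvd.2 (hgS hℓ hℓS))⟩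

/-- The newform of a case, with the coefficients, the setting and the base point. -/
theorem exists_ctx_point_of_isCase (hW : W.IsSemistableModel) (h35 : p = 3 ∨ p = 5)
    (hirr : W.ModRepIsIrreducible p) (haux : IsAuxiliary W p a) (hcase : IsCase (p := p) hΔ a b)
    (sp : ℤ) (hsp1 : sp = 1 ∨ sp = -1)
    (hsp : (p : ℤ) ∣ W.Δ → ∀ P : ValuationSubring (AlgebraicClosure ℚ), P.LiesOverPrime p →
      ∀ σ : Deform.Gal, P.IsFrobeniusAt σ p → (∀ μ : AlgebraicClosure ℚ, μ ^ p = 1 → σ μ = μ) →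
        ∀ (k : Type) [Field k] [CharP k p],
          LinearMap.trace k _ ((Curve.residual (p := p) hΔ k).ρ σ) = ((2 * sp : ℤ) : k)) :
    ∃ (M : ℕ) (g₀ : CuspForm (Gamma0 M) 2), g₀.IsNewform ∧
    ∃ (O : Type) (_ : CommRing O) (_ : IsDomain O) (_ : IsDiscreteValuationRing O)
      (_ : IsAdicComplete (maximalIdeal O) O) (_ : Finite (ResidueField O)) (_ : CharZero O)
      (_ : CharP (ResidueField O) p) (C : Ctx O p),
      C.W = W ∧ C.a = a ∧ C.sp = sp ∧ C.Base b ∧ M ∣ C.baseLevel b ∧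
      (∃ ζ : O, IsPrimitiveRoot ζ p) ∧
      (∃ φ : O →+* RT.Germ.ball1 ℂ_[p], Function.Injective φ ∧
        ∀ c ∈ maximalIdeal O, ‖(φ c : ℂ_[p])‖ < 1) ∧
      ∃ (α : ℕ → O) (σ : O →+* ℂ), Function.Injective σ ∧
        (∀ ℓ : ℕ, ℓ.Prime → σ (α ℓ) = qCoeff g₀ ℓ) ∧
        (∀ ℓ : ℕ, ℓ.Prime → ℓ ∉ C.badSet → residue O (α ℓ) = C.abar ℓ) ∧
        ∀ (N : ℕ) [NeZero N], N = C.baseLevel b → ∀ (S : Finset ℕ), C.badSet ⊆ S →
          ∀ {K : Subgroup (ZMod N)ˣ}, K = ⊤ → ∀ {e : ℕ} (hK : TwistSub N K e) (eps : ℕ → O),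
            Nontrivial (wEigen S C.abar hK ∅ eps) ∧
              ∃ x : levelT S C.abar hK ∅ eps →ₐ[O] O, ∀ ℓ : ℕ, ℓ.Prime → ℓ ∉ S →
                x (levelOp S C.abar hK ∅ eps ℓ) = α ℓ := by
  obtain ⟨f, 𝔪, hf, h𝔪, hp𝔪, hfW⟩ := hcase.modular
  have hN : caseLevel (p := p) hΔ a b ≠ 0 :=
    (squarefree_caseLevel (p := p) hΔ haux.prime haux.ne b).ne_zero
  obtain ⟨M, hM, g, hg, hgf⟩ := ConductorLevel.exists_newform_below hN hf
  haveI : NeZero M := ⟨fun h0 => hN (Nat.eq_zero_of_zero_dvd (h0 ▸ hM))⟩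
  obtain ⟨O, i1, i2, i3, i4, i5, i6, i7, C, hCW, hCa, hCs, hCN, hζ, hφ, rest⟩ :=
    exists_ctx_point hΔ b hW h35 hirr haux sp hsp1 hsp hM hg.1 𝔪 hp𝔪 fun ℓ hℓ hgood hℓN hℓp => by
      obtain ⟨z, hz, hz𝔪⟩ := hfW ℓ hℓ hgood hℓN hℓp
      exact ⟨z, hz.trans (hgf ℓ hℓ hℓN).symm, hz𝔪⟩
  refine ⟨M, g, hg, O, i1, i2, i3, i4, i5, i6, i7, C, hCW, hCa, hCs, ?_, hCN ▸ hM, hζ, hφ, rest⟩
  obtain rfl := hCW
  obtain rfl := hCa
  exact C.base_of_isCase hcase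

end Fermat.Agent.Lifting
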