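import Mathlib.GroupTheory.PGroup
import Mathlib.NumberTheory.Padics.PadicVal.Basic
import Fermat.Agent.Lifting.Degeneracy.Step

/-!
# The subgroups `K` of the lifting argument

A weight gives for every prime `q` a power `P q` of `p` dividing `q - 1`. `diaSub P N` is the
subgroup of `(ℤ/N)ˣ` of the units whose component at every `q ∣ N` is killed by `(q - 1) / P q`.
The raising levels use `fullWeight`, the Taylor–Wiles levels `twWeight`.
-/

set_option autoImplicit false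

noncomputable section

namespace Fermat.Agent.Lifting

open Degeneracy

/-- A system of `p`-power weights, trivial outside `T`. -/
structure IsWeight (p : ℕ) (T : Finset ℕ) (P : ℕ → ℕ) : Prop where
  pow : ∀ q, ∃ k, P q = p ^ k
  dvd : ∀ q ∈ T, q.Prime → P q ∣ q - 1
  trivial : ∀ q, q ∉ T → P q = 1

/-- The full `p`-part of `q - 1` on `T`. -/
def fullWeight (p : ℕ) (T : Finset ℕ) (q : ℕ) : ℕ :=
  if q ∈ T then p ^ padicValNat p (q - 1) else 1

/-- `p ^ n` on `Q`. -/
def twWeight (p n : ℕ) (Q : Finset ℕ) (q : ℕ) : ℕ := if q ∈ Q then p ^ n else 1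

theorem isWeight_fullWeight (p : ℕ) (T : Finset ℕ) : IsWeight p T (fullWeight p T) where
  pow q := by
    unfold fullWeight
    split_ifs
    exacts [⟨_, rfl⟩, ⟨0, rfl⟩]
  dvd q hq _ := by
    rw [fullWeight, if_pos hq]
    exact pow_padicValNat_dvd
  trivial q hq := if_neg hq

theorem isWeight_twWeight (p n : ℕ) (Q : Finset ℕ) (h : ∀ q ∈ Q, p ^ n ∣ q - 1) :
    IsWeight p Q (twWeight p n Q) where
  pow q := by
    unfold twWeight
    split_ifs
    exacts [⟨_, rfl⟩, ⟨0, rfl⟩]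
  dvd q hq _ := by
    rw [twWeight, if_pos hq]
    exact h q hq
  trivial q hq := if_neg hq

/-- The units whose components are killed by `(q - 1) / P q`. -/
def diaSub (P : ℕ → ℕ) (N : ℕ) : Subgroup (ZMod N)ˣ where
  carrier := {u | ∀ (q : ℕ) (h : q ∣ N), q.Prime → ZMod.unitsMap h u ^ ((q - 1) / P q) = 1}
  one_mem' q h _ := by rw [map_one, one_pow]
  mul_mem' ha hb q h hq := by rw [map_mul, mul_pow, ha q h hq, hb q h hq, one_mul]
  inv_mem' ha q h hq := by rw [map_inv, inv_pow, ha q h hq, inv_one]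

theorem mem_diaSub {P : ℕ → ℕ} {N : ℕ} {u : (ZMod N)ˣ} :
    u ∈ diaSub P N ↔
      ∀ (q : ℕ) (h : q ∣ N), q.Prime → ZMod.unitsMap h u ^ ((q - 1) / P q) = 1 := Iff.rfl

/-- The exponent of the twist at level `N`. -/
def weightExp (P : ℕ → ℕ) (N : ℕ) : ℕ := ((∏ q ∈ N.primeFactors, P q) - 1) / 2

variable {p : ℕ} {T : Finset ℕ} {P : ℕ → ℕ}

theorem IsWeight.dvd_sub_one (hP : IsWeight p T P) {q : ℕ} (hq : q.Prime) : P q ∣ q - 1 := by
  by_cases h : q ∈ T
  · exact hP.dvd q h hq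
  · rw [hP.trivial q h]
    exact one_dvd _

theorem IsWeight.isPow_prod (hP : IsWeight p T P) (s : Finset ℕ) :
    ∃ k, ∏ q ∈ s, P q = p ^ k := by
  classical
  induction s using Finset.induction_on with
  | empty => exact ⟨0, rfl⟩
  | insert q s hq ih =>
    obtain ⟨k, hk⟩ := ih
    obtain ⟨j, hj⟩ := hP.pow q
    exact ⟨j + k, by rw [Finset.prod_insert hq, hk, hj, pow_add]⟩

/-- A power killed by every weight lies in `diaSub`. -/
theorem pow_mem_diaSub (hP : IsWeight p T P) {N m : ℕ}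
    (hm : ∀ q, q.Prime → q ∣ N → P q ∣ m) (u : (ZMod N)ˣ) : u ^ m ∈ diaSub P N := fun q h hq => by
  have : Fact q.Prime := ⟨hq⟩
  obtain ⟨c, hc⟩ := hm q hq h
  rw [map_pow, ← pow_mul, hc, show P q * c * ((q - 1) / P q) = c * (P q * ((q - 1) / P q)) by ring,
    Nat.mul_div_cancel' (hP.dvd_sub_one hq), pow_mul', ZMod.units_pow_card_sub_one_eq_one, one_pow]

theorem twistSub_diaSub (hP : IsWeight p T P) {N e : ℕ}
    (he : ∀ q, q.Prime → q ∣ N → P q ∣ 2 * e + 1) : TwistSub N (diaSub P N) e where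
  split := fun {q M} h u hM hQ r hr hrp => by
    have : Fact r.Prime := ⟨hrp⟩
    have hrNq : r ∣ M * q := h.eq ▸ hr
    rcases hrp.dvd_mul.1 hrNq with hrM | hrq
    · obtain ⟨k, hk, hke⟩ := hM
      have e1 : ∀ v : (ZMod N)ˣ, ZMod.unitsMap hr v = ZMod.unitsMap hrM (h.toM v) := fun v => by
        rw [ALLevel.toM, ← MonoidHom.comp_apply, ZMod.unitsMap_comp]
      rw [e1, ← hke, ← e1]
      exact hk r hr hrp
    · obtain rfl := (Nat.prime_dvd_prime_iff_eq hrp h.prime).1 hrq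
      obtain ⟨k, hk, hke⟩ := hQ
      rw [show ZMod.unitsMap hr u = h.toQ u from rfl, ← hke]
      exact hk r hr hrp
  pow u := pow_mem_diaSub hP he u

theorem dvd_prod_weight {N q : ℕ} (hN : N ≠ 0) (hq : q.Prime) (hqN : q ∣ N) :
    P q ∣ ∏ r ∈ N.primeFactors, P r :=
  Finset.dvd_prod_of_mem P (Nat.mem_primeFactors.2 ⟨hq, hqN, hN⟩)

theorem odd_prod_weight (hP : IsWeight p T P) (hp : p.Prime) (hp2 : p ≠ 2) (s : Finset ℕ) :
    Odd (∏ q ∈ s, P q) := by
  obtain ⟨k, hk⟩ := hP.isPow_prod s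
  exact hk ▸ (hp.odd_of_ne_two hp2).pow

theorem two_mul_weightExp_add_one (hP : IsWeight p T P) (hp : p.Prime) (hp2 : p ≠ 2) (N : ℕ) :
    2 * weightExp P N + 1 = ∏ q ∈ N.primeFactors, P q := by
  obtain ⟨k, hk⟩ := odd_prod_weight hP hp hp2 N.primeFactors
  rw [weightExp, hk]
  omega

theorem twistSub_weightExp (hP : IsWeight p T P) (hp : p.Prime) (hp2 : p ≠ 2) {N : ℕ}
    (hN : N ≠ 0) : TwistSub N (diaSub P N) (weightExp P N) :=
  twistSub_diaSub hP fun _ hq hqN =>
    (two_mul_weightExp_add_one hP hp hp2 N).symm ▸ dvd_prod_weight hN hq hqN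

theorem isPGroup_quotient_diaSub (hP : IsWeight p T P) {N : ℕ} (hN : N ≠ 0) :
    IsPGroup p ((ZMod N)ˣ ⧸ diaSub P N) := fun x => by
  obtain ⟨u, rfl⟩ := QuotientGroup.mk_surjective x
  obtain ⟨k, hk⟩ := hP.isPow_prod N.primeFactors
  refine ⟨k, ?_⟩
  rw [← QuotientGroup.mk_pow, QuotientGroup.eq_one_iff]
  exact pow_mem_diaSub hP (fun q hq hqN => hk ▸ dvd_prod_weight hN hq hqN) u

/-- The component of `diaSub` at the lower level. -/
theorem lowSub_diaSub (hP : IsWeight p T P) {M q : ℕ} (h : ALLevel (M * q) q M) :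
    lowSub h (diaSub P (M * q)) = diaSub P M := by
  ext a
  constructor
  · rintro ⟨u, hu, rfl⟩ r hr hrp
    have := hu r (hr.trans h.dvdM) hrp
    rwa [ALLevel.toM, ← MonoidHom.comp_apply, ZMod.unitsMap_comp]
  · intro ha
    refine ⟨h.unit a 1, fun r hr hrp => ?_, h.toM_unit a 1⟩
    rcases hrp.dvd_mul.1 hr with hrM | hrq
    · have e1 : ZMod.unitsMap hr (h.unit a 1) = ZMod.unitsMap hrM (h.toM (h.unit a 1)) := by
        rw [ALLevel.toM, ← MonoidHom.comp_apply, ZMod.unitsMap_comp]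
      rw [e1, h.toM_unit]
      exact ha r hrM hrp
    · obtain rfl := (Nat.prime_dvd_prime_iff_eq hrp h.prime).1 hrq
      rw [show ZMod.unitsMap hr (h.unit a 1) = h.toQ (h.unit a 1) from rfl, h.toQ_unit, one_pow]

end Fermat.Agent.Lifting
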